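import Fermat.Agent.SS.GM2.Defs

/-!
# S33 / Glue : the `K`-level statement behind `Toric`   (owner: helper13)

Wild analogue of `SS.GM2.CoreK2` (exponent `m = p =` residue characteristic).
`CongK r c x` : `x ≡ 1 mod c` for the Gauss valuation of `A((q))` (`K`-level version of `S33.CongOne`).
-/

set_option autoImplicit false

open Polynomial ModularCurve AlgebraicCurve

namespace Fermat.Agent.S33.Glue

open Fermat.Agent.S28 (V J evAt)
open Fermat.Agent.Crux.GM (castS)
open Fermat.Agent.ES (Qb FF)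
open Fermat.Agent.SS.GM2

noncomputable section

section CongK

variable {A K k : Type*} [CommRing A] [Field K] [Algebra A K] [Field k]

/-- `x ≡ 1 mod c` for the Gauss valuation of `A((q))` (quotient form), over `(A, K)`. -/
def CongK (r : A →+* k) (c : A) (x : LaurentSeries K) : Prop :=
  ∃ y₁ y₂ y₃ : LaurentSeries A, coeffMap r y₂ ≠ 0 ∧
    x * coeffMap (algebraMap A K) y₂ = coeffMap (algebraMap A K) y₁ ∧
    y₁ - y₂ = HahnSeries.C c * y₃

theorem CongK.of_dvd {r : A →+* k} {c c' : A} {x : LaurentSeries K} (h : c ∣ c')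
    (hx : CongK r c' x) : CongK r c x := by
  obtain ⟨d, rfl⟩ := h
  obtain ⟨y₁, y₂, y₃, h0, h1, h2⟩ := hx
  exact ⟨y₁, y₂, HahnSeries.C d * y₃, h0, h1, by rw [h2, map_mul, mul_assoc]⟩

end CongK

/-- **The statement over a DVR `A` of a number field `K ⊆ ℚ̄`, `ζ_p ∈ A`, residue characteristic `p`.**
`τ_K` stabilises `A` and is trivial on `k` ("inertia"), `τ ζ = ζ^e`, `p ∣ e + f`;
`W ∈ F_K(M p)` is `≡ 1 mod (ζ - 1)^p` for both Gauss valuations `v_∞`, `v_∞ ∘ w`, and
`div W ∈ p Div` (`InvKq` in both charts).  Then every `p`-th root of `τ W * W^f` in `K((q))` lies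
in `F_K(M p)`. -/
def CoreK2W (M p : ℕ) [NeZero M] [NeZero p] : Prop :=
  ∀ {A K k : Type} [CommRing A] [IsDomain A] [IsDiscreteValuationRing A] [Field K]
    [Algebra A K] [IsFractionRing A K] [Algebra K Qb] [Field k] [Finite k]
    (r : A →+* k), Function.Surjective r → r p = 0 →
  ∀ ζ : A, IsPrimitiveRoot ζ p →
  ∀ (τK : K →+* K) (τA : A →+* A), (∀ a, τK (algebraMap A K a) = algebraMap A K (τA a)) →
    (∀ a, r (τA a) = r a) →
  ∀ e f : ℕ, τA ζ = ζ ^ e → p ∣ e + f →
  ∀ w : modularFunctionFieldFullC K (M * p) →ₐ[K] modularFunctionFieldFullC K (M * p),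
    IsALK K M p w →
  ∀ W : modularFunctionFieldFullC K (M * p),
    CongK r ((ζ - 1) ^ p) (W : LaurentSeries K) →
    CongK r ((ζ - 1) ^ p) ((w W : _) : LaurentSeries K) →
    InvKq K (M * p) p (castS K (Xh M p)) W → InvKq K (M * p) p (castS K (Xh M p))⁻¹ W →
  ∀ v : LaurentSeries K, v ^ p = coeffMap τK (W : LaurentSeries K) * (W : LaurentSeries K) ^ f →
    v ∈ modularFunctionFieldFullC K (M * p)

end

end Fermat.Agent.S33.Glue
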