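import Fermat.Agent.SS.GM2.Desc.Norm
import Fermat.Agent.S33.Glue.Defs
import Fermat.Agent.S33.Rig.Main

/-!
# S33 / Glue / Descent : (W3) the descent `(ℚ̄, A) → (K₀, A₀)` :  `CoreK2W M p ⟹ Toric M p`

Wild port of `SS/GM2/Desc/{Step,Norm}` and `SS/GM2/Descent` (exponent `m = p`, `τ` in the inertia group,
congruences modulo `p²` instead of reductions).

* `exists_tauA_w`   : `τ` on `A₀ = A ∩ K₀`, trivial on the residue field;
* `congK_of_models` : `CongK` over `A₀` from `CongOne` data in `F_N ∩ A((q))` and models over `K₀`;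
* `core_step2_w`    : the application of `CoreK2W` over a number field containing all the data;
* `exists_root_of_congOne` : the normalised case (`W ≡ 1`, `w W ≡ 1 mod p²`);
* `toric_of_coreK2W` : `Toric`, given the gluing lemma (W4) as a hypothesis.
-/

set_option autoImplicit false

open AlgebraicCurve ModularCurve IntermediateField

namespace Fermat.Agent.S33.Glue

open Fermat.Agent.ES Fermat.Agent.SS Fermat.Agent.Crux Fermat.Agent.SS.GM2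
open Fermat.Agent.S28 (V J evAt)
open Fermat.Agent.S24.FF (Ry)
open Fermat.Agent.Crux.GM (castS)

/-- `τ` on `A₀`; it is trivial on the residue field if `τ` is in the inertia group. -/
theorem exists_tauA_w (A : ValuationSubring Qb) (τ : A.decompositionSubgroup ℚ)
    (hτ : ∀ x : kA A, τ • x = x)
    (K₀ : Type) [Field K₀] [Algebra K₀ Qb]
    (τK : K₀ →+* K₀) (hτK : ∀ x, algebraMap K₀ Qb (τK x) = (τ : GQ) (algebraMap K₀ Qb x)) :
    ∃ τA : A0 K₀ A →+* A0 K₀ A,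
      (∀ a, τK (algebraMap (A0 K₀ A) K₀ a) = algebraMap (A0 K₀ A) K₀ (τA a)) ∧
      (∀ a, IsLocalRing.residue (A0 K₀ A) (τA a) = IsLocalRing.residue (A0 K₀ A) a) := by
  let inc : A0 K₀ A → A := fun a => ⟨algebraMap K₀ Qb a, a.2⟩
  have hmem : ∀ a : A0 K₀ A, (τK.comp (A0 K₀ A).subtype) a ∈ A0 K₀ A := by
    intro a
    show algebraMap K₀ Qb (τK a) ∈ A
    rw [hτK]
    exact (galA τ (inc a)).2
  let τA : A0 K₀ A →+* A0 K₀ A := (τK.comp (A0 K₀ A).subtype).codRestrict (A0 K₀ A) hmem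
  have hsm : ∀ b : A, IsLocalRing.residue A (galA τ b) = τ • IsLocalRing.residue A b :=
    fun b => IsLocalRing.ResidueField.residue_smul _ τ b
  refine ⟨τA, fun a => rfl, fun a => ?_⟩
  rw [← sub_eq_zero, ← map_sub]
  refine (residue_comap_eq_zero_iff (algebraMap K₀ Qb) A _ (galA τ (inc a) - inc a) ?_).mpr ?_
  · show algebraMap K₀ Qb (τK a - a) = (τ : GQ) (algebraMap K₀ Qb a) - algebraMap K₀ Qb a
    rw [map_sub, hτK]
  · rw [map_sub, hsm, hτ, sub_self]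

/-- `CongK` modulo `p²` over `A₀ = A ∩ K₀` from models of numerator and denominator. -/
theorem congK_of_models (K₀ : Type) [Field K₀] [CharZero K₀] [Algebra K₀ Qb]
    (A : ValuationSubring Qb) (p : ℕ) (hp0 : p ≠ 0)
    (W₀ u₁ u₂ : LaurentSeries K₀) (y₁ y₂ y₃ : LaurentSeries A)
    (hu₁ : coeffMap (algebraMap K₀ Qb) u₁ = coeffMap A.subtype y₁)
    (hu₂ : coeffMap (algebraMap K₀ Qb) u₂ = coeffMap A.subtype y₂)
    (hne : coeffMap (resA A) y₂ ≠ 0) (hsub : y₁ - y₂ = HahnSeries.C ((p : A) ^ 2) * y₃)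
    (hW : coeffMap (algebraMap K₀ Qb) W₀ * coeffMap A.subtype y₂ = coeffMap A.subtype y₁) :
    CongK (IsLocalRing.residue (A0 K₀ A)) ((p : A0 K₀ A) ^ 2) W₀ := by
  obtain ⟨z₁, hz₁, hz₁'⟩ := exists_A0_series K₀ A u₁ y₁ hu₁
  obtain ⟨z₂, hz₂, hz₂'⟩ := exists_A0_series K₀ A u₂ y₂ hu₂
  have hpK : (HahnSeries.C ((p : K₀) ^ 2) : LaurentSeries K₀) ≠ 0 := by
    rw [Ne, map_eq_zero]
    exact pow_ne_zero 2 (Nat.cast_ne_zero.2 hp0)
  have hCK : coeffMap (algebraMap K₀ Qb) (HahnSeries.C ((p : K₀) ^ 2))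
      = coeffMap A.subtype (HahnSeries.C ((p : A) ^ 2)) := by
    rw [HahnSeries.C_apply, HahnSeries.C_apply, coeffMap_single, coeffMap_single]
    congr 1
    simp
  obtain ⟨z₃, hz₃, -⟩ := exists_A0_series K₀ A ((u₁ - u₂) / HahnSeries.C ((p : K₀) ^ 2)) y₃ (by
    have h0 : coeffMap (algebraMap K₀ Qb) (HahnSeries.C ((p : K₀) ^ 2)) ≠ 0 := by
      rw [Ne, map_eq_zero]; exact hpK
    rw [map_div₀, div_eq_iff h0, map_sub, hu₁, hu₂, ← map_sub, hsub, map_mul, hCK, mul_comm])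
  have hιinj : Function.Injective (coeffMap (algebraMap (A0 K₀ A) K₀)) := by
    intro x y h
    ext m
    have := congrArg (fun z => z.coeff m) h
    simp only [coeffMap_coeff] at this
    exact congrArg Subtype.val (Subtype.val_injective this)
  refine ⟨z₁, z₂, z₃, coeffMap_residue_A0_ne_zero K₀ A z₂ y₂ hz₂' hne, ?_, ?_⟩
  · rw [hz₁, hz₂]
    apply coeffMap_injective (algebraMap K₀ Qb) (algebraMap K₀ Qb).injective
    rw [map_mul, hu₁, hu₂, hW]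
  · apply hιinj
    have hC : coeffMap (algebraMap (A0 K₀ A) K₀) (HahnSeries.C ((p : A0 K₀ A) ^ 2))
        = HahnSeries.C ((p : K₀) ^ 2) := by
      rw [HahnSeries.C_apply, HahnSeries.C_apply, coeffMap_single, map_pow, map_natCast]
    rw [map_sub, map_mul, hz₁, hz₂, hz₃, hC, mul_div_cancel₀ _ hpK]

/-- The `p`-th root of `τ W * W^f` in `K₀((t))`. -/
theorem exists_root_w (K₀ : Type) [Field K₀] [Algebra K₀ Qb] [CharZero K₀] (N m f : ℕ) [NeZero N]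
    (hm : 0 < m) (τK : K₀ →+* K₀) (W : FF N)
    (hW0 : W ≠ 0) (hdiv : ∀ P : Place Qb (FF N), (m : ℤ) ∣ P.ord W) (W₀ : LaurentSeries K₀)
    (hW₀ : coeffMap (algebraMap K₀ Qb) W₀ = (W : LaurentSeries Qb)) (d : K₀)
    (hd : algebraMap K₀ Qb d ^ m = (W : LaurentSeries Qb).leadingCoeff) :
    ∃ v : LaurentSeries K₀, v ^ m = coeffMap τK W₀ * W₀ ^ f := by
  have hφ : Function.Injective (algebraMap K₀ Qb) := (algebraMap K₀ Qb).injective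
  have hne : W₀ ≠ 0 := by
    rintro rfl
    rw [map_zero] at hW₀
    exact hW0 (Subtype.ext hW₀.symm)
  have hord : (m : ℤ) ∣ W₀.order := by
    rw [← order_coeffMap _ hφ, hW₀]
    exact GM.dvd_order_coe N m W hW0 hdiv
  have hlead : ∃ u : K₀, u ^ m = W₀.leadingCoeff := by
    refine ⟨d, hφ ?_⟩
    rw [map_pow, ← leadingCoeff_coeffMap _ hφ, hW₀, hd]
  obtain ⟨v₁, hv₁⟩ := GM.exists_pow_eq_laurent m hm W₀ hne hord hlead
  refine ⟨coeffMap τK v₁ * v₁ ^ f, ?_⟩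
  rw [mul_pow, ← map_pow, hv₁, ← pow_mul, mul_comm f m, pow_mul, hv₁]

/-- **The application of `CoreK2W`** over a number field `K₀ ⊆ ℚ̄` containing all the data. -/
theorem core_step2_w (M p : ℕ) [NeZero M] [NeZero p] (hp : p.Prime) (hp2 : p ≠ 2)
    (h : CoreK2W M p)
    (A : ValuationSubring Qb) (hA : A.LiesOverPrime p)
    (w : FF (M * p) →ₐ[Qb] FF (M * p)) (hw : IsAL M p w)
    (τ : A.decompositionSubgroup ℚ) (hτ : ∀ x : kA A, τ • x = x)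
    (e f : ℕ) (hef : p ∣ e + f) (W : FF (M * p)) (hW0 : W ≠ 0)
    (hdiv : ∀ P : Place Qb (FF (M * p)), (p : ℤ) ∣ P.ord W)
    (y₁ y₂ y₃ y₁' y₂' y₃' : LaurentSeries A)
    (hne : coeffMap (resA A) y₂ ≠ 0) (hsub : y₁ - y₂ = HahnSeries.C ((p : A) ^ 2) * y₃)
    (hWy : (W : LaurentSeries Qb) * coeffMap A.subtype y₂ = coeffMap A.subtype y₁)
    (hne' : coeffMap (resA A) y₂' ≠ 0) (hsub' : y₁' - y₂' = HahnSeries.C ((p : A) ^ 2) * y₃')
    (hWy' : ((w W : FF (M * p)) : LaurentSeries Qb) * coeffMap A.subtype y₂'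
      = coeffMap A.subtype y₁')
    (X : FF (M * p)) (hX : (X : LaurentSeries Qb) = castS Qb (Xh M p))
    (n₁ : ℕ) (a₁ b₁ : Fin n₁ → FF (M * p))
    (ha₁ : ∀ i, IsIntegral (Ry Qb X) (a₁ i ^ p * W))
    (hb₁ : ∀ i, IsIntegral (Ry Qb X) (b₁ i ^ p * W⁻¹)) (hab₁ : ∑ i, a₁ i * b₁ i = 1)
    (n₂ : ℕ) (a₂ b₂ : Fin n₂ → FF (M * p))
    (ha₂ : ∀ i, IsIntegral (Ry Qb X⁻¹) (a₂ i ^ p * W))
    (hb₂ : ∀ i, IsIntegral (Ry Qb X⁻¹) (b₂ i ^ p * W⁻¹)) (hab₂ : ∑ i, a₂ i * b₂ i = 1)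
    (K₀ : Type) [Field K₀] [NumberField K₀] [Algebra K₀ Qb]
    (τK : K₀ →+* K₀) (hτK : ∀ x, algebraMap K₀ Qb (τK x) = (τ : GQ) (algebraMap K₀ Qb x))
    (ζ : K₀) (hζ : IsPrimitiveRoot ζ p) (he : τK ζ = ζ ^ e)
    (d : K₀) (hd : algebraMap K₀ Qb d ^ p = (W : LaurentSeries Qb).leadingCoeff)
    (hMW : HasModel K₀ (M * p) (W : LaurentSeries Qb))
    (hMy₁ : HasModel K₀ (M * p) (coeffMap A.subtype y₁))
    (hMy₂ : HasModel K₀ (M * p) (coeffMap A.subtype y₂))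
    (hMy₁' : HasModel K₀ (M * p) (coeffMap A.subtype y₁'))
    (hMy₂' : HasModel K₀ (M * p) (coeffMap A.subtype y₂'))
    (hMa₁ : ∀ i, HasModel K₀ (M * p) (a₁ i : LaurentSeries Qb))
    (hMb₁ : ∀ i, HasModel K₀ (M * p) (b₁ i : LaurentSeries Qb))
    (hMa₂ : ∀ i, HasModel K₀ (M * p) (a₂ i : LaurentSeries Qb))
    (hMb₂ : ∀ i, HasModel K₀ (M * p) (b₂ i : LaurentSeries Qb)) :
    ∃ h₀ : FF (M * p), h₀ ^ p = galF (M * p) (τ : GQ) W * W ^ f := by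
  have hφ : Function.Injective (algebraMap K₀ Qb) := (algebraMap K₀ Qb).injective
  have hdvr : IsDiscreteValuationRing (A0 K₀ A) :=
    isDiscreteValuationRing_of_numberField _ (A0_ne_top K₀ A hp hA)
  have hfin : Finite (IsLocalRing.ResidueField (A0 K₀ A)) :=
    finite_residueField _ (A0_ne_top K₀ A hp hA)
  obtain ⟨π, hπ⟩ := IsDiscreteValuationRing.exists_irreducible (A0 K₀ A)
  obtain ⟨τA, hτA, hτres⟩ := exists_tauA_w A τ hτ K₀ τK hτK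
  obtain ⟨wK, hwK, hwK'⟩ := exists_wK M p hp w hw K₀
  obtain ⟨W₀, hW₀m, hW₀⟩ := hMW
  obtain ⟨u₁, -, hu₁⟩ := hMy₁
  obtain ⟨u₂, -, hu₂⟩ := hMy₂
  obtain ⟨u₁', -, hu₁'⟩ := hMy₁'
  obtain ⟨u₂', -, hu₂'⟩ := hMy₂'
  -- the primitive root of unity in `A₀`
  have hζA : ζ ∈ A0 K₀ A := by
    show algebraMap K₀ Qb ζ ∈ A
    exact mem_of_pow_eq_one A hp.ne_zero (by rw [← map_pow, hζ.pow_eq_one, map_one])
  have hζ' : IsPrimitiveRoot (⟨ζ, hζA⟩ : A0 K₀ A) p :=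
    IsPrimitiveRoot.of_map_of_injective (f := (A0 K₀ A).subtype) hζ Subtype.val_injective
  have heA : τA ⟨ζ, hζA⟩ = (⟨ζ, hζA⟩ : A0 K₀ A) ^ e := by
    apply Subtype.ext
    have := hτA ⟨ζ, hζA⟩
    exact this.symm.trans he
  -- `(ζ - 1) ^ p ∣ p²`
  have hπp : π ∣ ((p : ℕ) : A0 K₀ A) := by
    have h1 : ((p : ℕ) : A0 K₀ A) ∈ IsLocalRing.maximalIdeal (A0 K₀ A) := by
      rw [← IsLocalRing.residue_eq_zero_iff]
      exact residue_A0_natCast K₀ A hA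
    rw [hπ.maximalIdeal_eq, Ideal.mem_span_singleton] at h1
    exact h1
  obtain ⟨t, ht⟩ := exists_sq_eq hp hp2 hζ' (dvd_sub_one_of_dvd_natCast hπ.prime hp hπp hζ')
  have hdvd : ((⟨ζ, hζA⟩ : A0 K₀ A) - 1) ^ p ∣ ((p : ℕ) : A0 K₀ A) ^ 2 :=
    ⟨π * t, by rw [ht, mul_assoc]⟩
  -- the two congruences
  have R1 : CongK (IsLocalRing.residue (A0 K₀ A)) (((⟨ζ, hζA⟩ : A0 K₀ A) - 1) ^ p) W₀ :=
    CongK.of_dvd hdvd
      (congK_of_models K₀ A p hp.ne_zero W₀ u₁ u₂ y₁ y₂ y₃ hu₁ hu₂ hne hsub (by rw [hW₀]; exact hWy))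
  have hwW := hwK' ⟨W₀, hW₀m⟩ W hW₀.symm
  have R2 : CongK (IsLocalRing.residue (A0 K₀ A)) (((⟨ζ, hζA⟩ : A0 K₀ A) - 1) ^ p)
      ((wK ⟨W₀, hW₀m⟩ : modularFunctionFieldFullC K₀ (M * p)) : LaurentSeries K₀) :=
    CongK.of_dvd hdvd
      (congK_of_models K₀ A p hp.ne_zero _ u₁' u₂' y₁' y₂' y₃' hu₁' hu₂' hne' hsub'
        (by rw [← hwW]; exact hWy'))
  -- the two charts
  have hXm : coeffMap (algebraMap K₀ Qb) (castS K₀ (Xh M p)) = (X : LaurentSeries Qb) := by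
    rw [hX, GM.coeffMap_castS]
  have I1 : InvKq K₀ (M * p) p (castS K₀ (Xh M p)) W₀ :=
    invKq_of_models K₀ (M * p) p X W _ W₀ hXm hW₀ n₁ a₁ b₁ ha₁ hb₁ hab₁ hMa₁ hMb₁
  have hXm' : coeffMap (algebraMap K₀ Qb) (castS K₀ (Xh M p))⁻¹
      = ((X⁻¹ : FF (M * p)) : LaurentSeries Qb) := by
    rw [map_inv₀, hXm]
    rfl
  have I2 : InvKq K₀ (M * p) p (castS K₀ (Xh M p))⁻¹ W₀ :=
    invKq_of_models K₀ (M * p) p X⁻¹ W _ W₀ hXm' hW₀ n₂ a₂ b₂ ha₂ hb₂ hab₂ hMa₂ hMb₂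
  -- the root
  obtain ⟨v, hv⟩ := exists_root_w K₀ (M * p) p f hp.pos τK W hW0 hdiv W₀ hW₀ d hd
  -- application of `CoreK2W`
  have k1 := h (A := A0 K₀ A) (K := K₀) (k := IsLocalRing.ResidueField (A0 K₀ A))
    (IsLocalRing.residue (A0 K₀ A)) IsLocalRing.residue_surjective
    (residue_A0_natCast K₀ A hA) ⟨ζ, hζA⟩ hζ' τK τA hτA hτres e f heA hef wK hwK
  have k2 := k1 ⟨W₀, hW₀m⟩ R1 R2 I1 I2 v hv
  refine ⟨⟨coeffMap (algebraMap K₀ Qb) v, coeffMap_mem_bar K₀ (M * p) k2⟩, ?_⟩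
  apply Subtype.ext
  rw [IntermediateField.coe_pow, IntermediateField.coe_mul, IntermediateField.coe_pow, coe_galF]
  show (coeffMap (algebraMap K₀ Qb) v) ^ p = _
  rw [← map_pow, hv, map_mul, map_pow, hW₀, coeffMap_coeffMap, ← hW₀, coeffMap_coeffMap]
  congr 1
  exact coeffMap_congr (RingHom.ext hτK) W₀

/-- **The normalised case.** -/
theorem exists_root_of_congOne (M p : ℕ) [NeZero M] [NeZero p] (hp : p.Prime) (hp2 : p ≠ 2)
    (h : CoreK2W M p)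
    (A : ValuationSubring Qb) (hA : A.LiesOverPrime p)
    (w : FF (M * p) →ₐ[Qb] FF (M * p)) (hw : IsAL M p w)
    (τ : A.decompositionSubgroup ℚ) (hτ : ∀ x : kA A, τ • x = x)
    (e f : ℕ) (hef : p ∣ e + f) (he : ∀ ζ : Qb, ζ ^ p = 1 → (τ : GQ) ζ = ζ ^ e)
    (W : FF (M * p)) (hW0 : W ≠ 0)
    (hdiv : ∀ P : Place Qb (FF (M * p)), (p : ℤ) ∣ P.ord W)
    (h1 : CongOne A ((p : A) ^ 2) (W : LaurentSeries Qb))
    (h2 : CongOne A ((p : A) ^ 2) ((w W : FF (M * p)) : LaurentSeries Qb)) :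
    ∃ h₀ : FF (M * p), h₀ ^ p = galF (M * p) (τ : GQ) W * W ^ f := by
  classical
  have hwW0 : w W ≠ 0 := (map_ne_zero _).mpr hW0
  obtain ⟨y₁, y₂, y₃, hy₁, hy₂, hne, hWy, hsub⟩ := CongOne.exists_ff W hW0 h1
  obtain ⟨y₁', y₂', y₃', hy₁', hy₂', hne', hWy', hsub'⟩ := CongOne.exists_ff (w W) hwW0 h2
  have hfd0 : FiniteDimensional Qb⟮S24.jN (M * p)⟯ (FF (M * p)) := S24.finiteDimensional_FN (M * p)
  have hfd : FiniteDimensional Qb⟮XF M p⟯ (FF (M * p)) :=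
    S24.FF.finiteDimensional_of_transcendental Qb (S24.jN (M * p)) (transcendental_XF M p)
  have hfd' : FiniteDimensional Qb⟮(XF M p)⁻¹⟯ (FF (M * p)) :=
    S24.FF.finiteDimensional_of_transcendental Qb (S24.jN (M * p)) (transcendental_XF_inv M p)
  obtain ⟨n₁, a₁, b₁, ha₁, hb₁, hab₁⟩ := exists_invK_gen (K := Qb) (XF M p) p hp.pos W hW0 hdiv
  obtain ⟨n₂, a₂, b₂, ha₂, hb₂, hab₂⟩ := exists_invK_gen (K := Qb) (XF M p)⁻¹ p hp.pos W hW0 hdiv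
  obtain ⟨ζ, hζ⟩ := HasEnoughRootsOfUnity.exists_primitiveRoot Qb p
  obtain ⟨d, hd⟩ := IsAlgClosed.exists_pow_nat_eq (W : LaurentSeries Qb).leadingCoeff hp.pos
  obtain ⟨K₀, hfin, hgal, hT, hS⟩ := exists_field (M * p) {ζ, d}
    ({W, ⟨_, hy₁⟩, ⟨_, hy₂⟩, ⟨_, hy₁'⟩, ⟨_, hy₂'⟩} ∪ Finset.univ.image a₁ ∪ Finset.univ.image b₁
      ∪ Finset.univ.image a₂ ∪ Finset.univ.image b₂)
  have hnf : NumberField K₀ := ⟨⟩
  let τK : K₀ →+* K₀ :=
    { toFun := fun x => ⟨(τ : GQ) x, hgal _ _ x.2⟩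
      map_one' := Subtype.ext (map_one _)
      map_mul' := fun x y => Subtype.ext (map_mul _ _ _)
      map_zero' := Subtype.ext (map_zero _)
      map_add' := fun x y => Subtype.ext (map_add _ _ _) }
  have hτK : ∀ x, algebraMap K₀ Qb (τK x) = (τ : GQ) (algebraMap K₀ Qb x) := fun x => rfl
  have hζK : ζ ∈ K₀ := hT ζ (by simp)
  have hdK : d ∈ K₀ := hT d (by simp)
  have hζ' : IsPrimitiveRoot (⟨ζ, hζK⟩ : K₀) p :=
    IsPrimitiveRoot.of_map_of_injective (f := algebraMap K₀ Qb) hζ (algebraMap K₀ Qb).injective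
  have heK : τK ⟨ζ, hζK⟩ = (⟨ζ, hζK⟩ : K₀) ^ e := Subtype.ext (he ζ hζ.pow_eq_one)
  exact core_step2_w M p hp hp2 h A hA w hw τ hτ e f hef W hW0 hdiv y₁ y₂ y₃ y₁' y₂' y₃' hne hsub hWy
    hne' hsub' hWy' (XF M p) rfl n₁ a₁ b₁ ha₁ hb₁ hab₁ n₂ a₂ b₂ ha₂ hb₂ hab₂ K₀ τK hτK
    ⟨ζ, hζK⟩ hζ' heK ⟨d, hdK⟩ hd
    (hS W (by simp))
    (hS ⟨_, hy₁⟩ (by simp)) (hS ⟨_, hy₂⟩ (by simp)) (hS ⟨_, hy₁'⟩ (by simp))
    (hS ⟨_, hy₂'⟩ (by simp))
    (fun i => hS (a₁ i) (by simp)) (fun i => hS (b₁ i) (by simp))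
    (fun i => hS (a₂ i) (by simp)) (fun i => hS (b₂ i) (by simp))

/-- **(W3)** `CoreK2W M p` ⟹ the Toric statement for a representative deep at both valuations. -/
theorem toric_of_coreK2W {M p : ℕ} [NeZero M] [NeZero p] {A : ValuationSubring Qb}
    (hp : p.Prime) (hp2 : p ≠ 2) (hpM : ¬ p ∣ M) (hcore : CoreK2W M p)
    (hA : A.LiesOverPrime p) {w : FF (M * p) →ₐ[Qb] FF (M * p)} (hw : IsAL M p w)
    (σ : GQ) (hσ : σ ∈ A.inertiaSubgroupIn ℚ) (e : ℕ) (he : ∀ ζ : Qb, ζ ^ p = 1 → σ ζ = ζ ^ e)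
    (W : Dm (M * p) p)
    (h1 : CongOne A ((p : A) ^ 2) (((W : (FF (M * p))ˣ) : FF (M * p)) : LaurentSeries Qb))
    (h2 : CongOne A ((p : A) ^ 2) ((w ((W : (FF (M * p))ˣ) : FF (M * p)) : FF (M * p)) :
        LaurentSeries Qb)) :
    galKum (M * p) p σ (Kum.mk W) = e • Kum.mk W := by
  obtain ⟨τ, hτ, rfl⟩ := hσ
  have hτ' : ∀ y : kA A, τ • y = y := by
    intro y
    have h1 : MulSemiringAction.toRingAut (A.decompositionSubgroup ℚ) (kA A) τ = 1 := hτ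
    exact congrArg (fun φ : RingAut (kA A) => φ y) h1
  have hu0 : ((W : (FF (M * p))ˣ) : FF (M * p)) ≠ 0 := Units.ne_zero _
  obtain ⟨h₀, hh₀⟩ := exists_root_of_congOne M p hp hp2 hcore A hA w hw τ hτ' e ((p - 1) * e)
    ⟨e, by
      obtain ⟨m, rfl⟩ : ∃ m, p = m + 1 := ⟨p - 1, by have := hp.pos; omega⟩
      rw [Nat.add_sub_cancel]; ring⟩ he _ hu0 W.2 h1 h2
  rw [galKum_mk, ← Kum.mk_pow, Kum.mk_eq_mk_iff]
  have hgu : galF (M * p) (τ : GQ) ((W : (FF (M * p))ˣ) : FF (M * p)) ≠ 0 :=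
    (map_ne_zero _).mpr hu0
  have key : (h₀ / ((W : (FF (M * p))ˣ) : FF (M * p)) ^ e) ^ p
      = galF (M * p) (τ : GQ) ((W : (FF (M * p))ˣ) : FF (M * p))
        * (((W : (FF (M * p))ˣ) : FF (M * p)) ^ e)⁻¹ := by
    rw [div_pow, hh₀]
    obtain ⟨m, hm⟩ : ∃ m, p = m + 1 := ⟨p - 1, by have := hp.pos; omega⟩
    have e1 : (((W : (FF (M * p))ˣ) : FF (M * p)) ^ e) ^ p
        = ((W : (FF (M * p))ˣ) : FF (M * p)) ^ ((p - 1) * e) * ((W : (FF (M * p))ˣ) : FF (M * p)) ^ e := by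
      rw [← pow_mul, ← pow_add]
      congr 1
      rw [hm, Nat.add_sub_cancel]; ring
    rw [e1]
    field_simp
  have hne : h₀ / ((W : (FF (M * p))ˣ) : FF (M * p)) ^ e ≠ 0 := by
    intro h0
    rw [h0, zero_pow hp.ne_zero] at key
    exact mul_ne_zero hgu (inv_ne_zero (pow_ne_zero _ hu0)) key.symm
  refine ⟨Units.mk0 _ hne, Units.ext ?_⟩
  rw [Units.val_pow_eq_pow_val, Units.val_mk0, key, Units.val_mul, Units.val_inv_eq_inv_val]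
  rfl

end Fermat.Agent.S33.Glue
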