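import Fermat.Agent.S33.Defs
import Fermat.Agent.S33.Rig.P3
import Fermat.Agent.SS.GM2.LevelRaise

/-!
# S33 / Glue / P3 : `Toric (2 M) 3 ⟹ Toric M 3` for `M` odd     (owner: helper13)

A good base coordinate in residue characteristic `3` exists only at even levels.  Pull everything
back to level `2 M · 3`; the pull-back `Kum (3M) 3 → Kum (6M) 3` is injective (`S33.exists_cube_root`).
-/

set_option autoImplicit false

open AlgebraicCurve ModularCurve

namespace Fermat.Agent.S33.Glue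

open Fermat.Agent.ES Fermat.Agent.SS Fermat.Agent.SS.GM2 Fermat.Agent.SS.GM2.LevelRaise

theorem P3_coe_map (N N' : ℕ) (hle : modularFunctionFieldBar N ≤ modularFunctionFieldBar N')
    (u : (FF N)ˣ) :
    ((Units.map ((IntermediateField.inclusion hle : FF N →ₐ[Qb] FF N') : FF N →* FF N') u :
      (FF N')ˣ) : FF N') = IntermediateField.inclusion hle (u : FF N) := rfl

theorem P3_coe_coe_map (N N' : ℕ) (hle : modularFunctionFieldBar N ≤ modularFunctionFieldBar N')
    (u : (FF N)ˣ) :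
    (((Units.map ((IntermediateField.inclusion hle : FF N →ₐ[Qb] FF N') : FF N →* FF N') u :
      (FF N')ˣ) : FF N') : LaurentSeries Qb) = ((u : FF N) : LaurentSeries Qb) := by
  rw [P3_coe_map, IntermediateField.coe_inclusion]

/-- level raising for `Toric`, given the injectivity of the pull-back. -/
theorem toric_raise_gen (M p q : ℕ) [NeZero M] [NeZero p] [NeZero q] (hq : q.Prime) (hp : p.Prime)
    (hpM : ¬ p ∣ M) (hpq : p ≠ q) (hqM : ¬ q ∣ M)
    (hroot : ∀ W : FF (M * q), W ≠ 0 → ∀ s : FF (p * M * q),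
      (s : LaurentSeries Qb) ^ q = (W : LaurentSeries Qb) → ∃ h₀ : FF (M * q), h₀ ^ q = W)
    (h : Toric (p * M) q hq) : Toric M q hq := by
  intro A hA w hw σ hσ e he x hx1 hx2
  have hdvd : M * q ∣ p * M * q := ⟨p, by ring⟩
  have hle : modularFunctionFieldBar (M * q) ≤ modularFunctionFieldBar (p * M * q) :=
    Crux.bar_le hdvd
  have hleM : modularFunctionFieldBar M ≤ modularFunctionFieldBar (p * M) :=
    Crux.bar_le (dvd_mul_left M p)
  have hpMq : ¬ p ∣ M * q := by
    intro hd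
    rcases (Nat.Prime.dvd_mul hp).mp hd with h1 | h1
    · exact hpM h1
    · exact hpq ((Nat.prime_dvd_prime_iff_eq hp hq).mp h1)
  have hrank : (modularFunctionFieldBar (M * q)).relfinrank
      (modularFunctionFieldBar (p * M * q)) = p + 1 := by
    have h1 := Crux.relfinrank_bar_mul_prime (N := M * q) hp hpMq
    rwa [← mul_assoc] at h1
  have hint : (IntermediateField.inclusion hle).toRingHom.IsIntegral :=
    Crux.isIntegral_inclusion _ _ hle (by rw [hrank]; omega)
  have hqpM : ¬ q ∣ p * M := by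
    intro hd
    rcases (Nat.Prime.dvd_mul hq).mp hd with h1 | h1
    · exact hpq ((Nat.prime_dvd_prime_iff_eq hq hp).mp h1).symm
    · exact hqM h1
  obtain ⟨w', hw'⟩ := exists_isAL (p * M) q hq hqpM
  have hDm : ∀ u : Dm (M * q) q,
      Units.map ((IntermediateField.inclusion hle : FF (M * q) →ₐ[Qb] FF (p * M * q)) :
        FF (M * q) →* FF (p * M * q)) (u : (FF (M * q))ˣ) ∈ Dm (p * M * q) q := by
    intro u P
    have h1 := Place.ord_restrictAlong (IntermediateField.inclusion hle) hint P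
      ((u : (FF (M * q))ˣ) : FF (M * q))
    rw [P3_coe_map, h1]
    exact Dvd.dvd.mul_left (u.2 _) _
  obtain ⟨u, rfl, hu⟩ := hx1
  obtain ⟨u₂, hu₂, hu₂d⟩ := hx2
  have hd1 : DeepCl A ((q : A) ^ 2) (Kum.mk (⟨_, hDm u⟩ : Dm (p * M * q) q)) := by
    refine ⟨_, rfl, ?_⟩
    rw [P3_coe_coe_map]
    exact hu
  have hd2 : DeepCl A ((q : A) ^ 2) (wKum hw' hq q (Kum.mk (⟨_, hDm u⟩ : Dm (p * M * q) q))) := by
    refine ⟨⟨_, hDm u₂⟩, ?_, ?_⟩
    · rw [wKum_mk, Kum.mk_eq_mk_iff] at hu₂ ⊢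
      obtain ⟨s, hs⟩ := hu₂
      refine ⟨Units.map ((IntermediateField.inclusion hle : FF (M * q) →ₐ[Qb] FF (p * M * q)) :
        FF (M * q) →* FF (p * M * q)) s, ?_⟩
      apply Units.ext
      have h1 := congrArg (fun z : (FF (M * q))ˣ =>
        IntermediateField.inclusion hle (z : FF (M * q))) hs
      have h2 := isAL_extends hq hle hleM hw hw' ((u : (FF (M * q))ˣ) : FF (M * q))
      simp only [Units.val_mul, Units.val_inv_eq_inv_val, Units.val_pow_eq_pow_val, coe_wU,
        map_mul, map_inv₀, map_pow] at h1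
      simp only [Units.val_mul, Units.val_inv_eq_inv_val, Units.val_pow_eq_pow_val, coe_wU,
        P3_coe_map]
      rw [h2, h1]
    · rw [P3_coe_coe_map]
      exact hu₂d
  have key := h A hA w' hw' σ hσ e he _ hd1 hd2
  rw [galKum_mk, ← Kum.mk_pow, Kum.mk_eq_mk_iff] at key
  obtain ⟨s, hs⟩ := key
  rw [galKum_mk, ← Kum.mk_pow, Kum.mk_eq_mk_iff]
  set y : (FF (M * q))ˣ := galU (M * q) (σ : GQ) (u : (FF (M * q))ˣ) * ((u : (FF (M * q))ˣ) ^ e)⁻¹
    with hy
  have hsy : (((s : (FF (p * M * q))ˣ) : FF (p * M * q)) : LaurentSeries Qb) ^ q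
      = (((y : (FF (M * q))ˣ) : FF (M * q)) : LaurentSeries Qb) := by
    have h1 := congrArg (fun z : (FF (p * M * q))ˣ => ((z : FF (p * M * q)) : LaurentSeries Qb)) hs
    simp only [Units.val_pow_eq_pow_val, SubmonoidClass.coe_pow] at h1
    rw [h1, hy]
    simp only [Units.val_mul, Units.val_inv_eq_inv_val, Units.val_pow_eq_pow_val, coe_galU]
    push_cast
    rw [coe_galF, coe_galF, P3_coe_coe_map]
  obtain ⟨t, ht⟩ := hroot ((y : (FF (M * q))ˣ) : FF (M * q)) y.ne_zero
    ((s : (FF (p * M * q))ˣ) : FF (p * M * q)) hsy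
  have ht0 : t ≠ 0 := by
    rintro rfl
    rw [zero_pow hq.ne_zero] at ht
    exact y.ne_zero ht.symm
  refine ⟨Units.mk0 t ht0, ?_⟩
  apply Units.ext
  rw [Units.val_pow_eq_pow_val, Units.val_mk0, ht]
  rfl

/-- **(W5)** `p = 3`, `M` odd. -/
theorem toric_raise (M : ℕ) [NeZero M] (hM : ¬ 2 ∣ M) (hM3 : ¬ 3 ∣ M)
    (h : Toric (2 * M) 3 Nat.prime_three) : Toric M 3 Nat.prime_three := by
  refine toric_raise_gen M 2 3 Nat.prime_three Nat.prime_two hM (by norm_num) hM3 ?_ h
  intro W hW s hs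
  have hodd : ¬ 2 ∣ M * 3 := by
    intro hd
    rcases (Nat.Prime.dvd_mul Nat.prime_two).mp hd with h1 | h1
    · exact hM h1
    · omega
  have hmem : (s : LaurentSeries Qb) ∈ modularFunctionFieldBar (M * 3 * 2) := by
    have e1 : M * 3 * 2 = 2 * M * 3 := by ring
    rw [e1]
    exact s.2
  refine exists_cube_root (M * 3) hodd W hW ⟨(s : LaurentSeries Qb), hmem⟩ (Subtype.ext ?_)
  rw [coe_heckeAlphaBar, SubmonoidClass.coe_pow]
  exact hs

end Fermat.Agent.S33.Glue
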