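import Fermat.Agent.S33.Glue.Renorm
import Fermat.Agent.S33.Glue.Descent
import Fermat.Agent.S33.Glue.P3

/-!
# S33 / Glue : `Toric M p` from the `K`-level statement `CoreK2W`
-/

set_option autoImplicit false

open AlgebraicCurve ModularCurve

namespace Fermat.Agent.S33.Glue

open Fermat.Agent.ES Fermat.Agent.SS
open Fermat.Agent.Crux (Admissible)

theorem toric_of_adm (M p : ℕ) [NeZero M] [NeZero p] (hp : p.Prime) (hp2 : p ≠ 2) (hpM : ¬ p ∣ M)
    (hcore : CoreK2W M p) : Toric M p hp := by
  intro A hA w hw σ hσ e he x h1 h2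
  obtain ⟨W, rfl, hW1, hW2⟩ := exists_deep_rep hp hpM hA hw x h1 h2
  exact toric_of_coreK2W hp hp2 hpM hcore hA hw σ hσ e he W hW1 hW2

/-- **TORIC**, from the `K`-level statement at admissible levels. -/
theorem toric_of_core
    (hcore : ∀ (M p : ℕ) [NeZero M] [NeZero p], p.Prime → ¬ p ∣ M → Admissible p M → CoreK2W M p)
    (M p : ℕ) [NeZero M] [NeZero p] (hp : p.Prime) (hp2 : p ≠ 2) (hpM : ¬ p ∣ M) :
    Toric M p hp := by
  by_cases hadm : Admissible p M
  · exact toric_of_adm M p hp hp2 hpM (hcore M p hp hpM hadm)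
  · unfold Admissible at hadm
    rw [not_and_or] at hadm
    rcases hadm with h | h
    · push Not at h
      obtain ⟨rfl, h2⟩ := h
      have hN' : ¬ 3 ∣ 2 * M := fun h =>
        hpM ((Nat.Coprime.dvd_mul_left (by norm_num : Nat.Coprime 3 2)).mp h)
      have hadm' : Admissible 3 (2 * M) := ⟨fun _ => dvd_mul_right 2 M, fun h => by omega⟩
      exact toric_raise M h2 hpM
        (toric_of_adm (2 * M) 3 Nat.prime_three hp2 hN' (hcore (2 * M) 3 hp hN' hadm'))
    · push Not at h
      exact absurd h.1 hp2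

end Fermat.Agent.S33.Glue
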