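import Fermat.Agent.SS.GM2.Desc.Renorm
import Fermat.Agent.S33.Level.Stubs

/-!
# S33 / Glue / Approx : weak approximation for the two Gauss valuations `v_∞`, `v_0 = v_∞ ∘ w`
(owner: helper52)

A class of `Kum (M p) m` which has a representative `≡ const mod c` for `v_∞` and another one
`≡ const mod c` for `v_0` has a SINGLE representative `u` with `u ≡ 1`, `w u ≡ 1 mod c`.

`δ_n = 𝔲^n / (𝔲^n + 𝔲'^n)` (`𝔲 = Y - J^p = p s`, `𝔲' = w 𝔲 = J - Y^p`): `δ_n ∈ p^n V_∞`, `w δ_n = 1 - δ_n`.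
`u₁` represents `x`, `u₂` represents `w x`, `u₂ = w(u₁) h^m`, `a₁ u₁ ≡ 1`, `a₂ u₂ ≡ 1`, `α^m = a₁`, `β^m = a₂`.
`t := α (1 - δ_n) + β w(h) δ_n = α (1 + ((β w h - α)/α) δ_n)`, `w t = β h (1 + ((α - β h)/(β h)) δ_n)`.
`u := u₁ t^m`.
-/

set_option autoImplicit false

open AlgebraicCurve ModularCurve

namespace Fermat.Agent.S33.Glue

open Fermat.Agent.ES Fermat.Agent.SS Fermat.Agent.SS.GM2
open Fermat.Agent.S28 (V J)
open Fermat.Agent.Crux.GM (castS)

variable {A : ValuationSubring Qb}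

/-- `1 + c a g ≡ 1 mod c` for `g` Gauss-integral. -/
theorem congOne_one_add_mul (c a : A) {g : LaurentSeries Qb} {r : LaurentSeries (kA A)}
    (h : RedTo A g r) : CongOne A c (1 + cst ((c * a : A) : Qb) * g) := by
  obtain ⟨y₁, y₂, h0, h1, -⟩ := h
  refine ⟨y₂ + HahnSeries.C c * (HahnSeries.C a * y₁), y₂, HahnSeries.C a * y₁, h0, ?_, by ring⟩
  have e : coeffMap A.subtype (HahnSeries.C c * (HahnSeries.C a * y₁))
      = cst ((c * a : A) : Qb) * coeffMap A.subtype y₁ := by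
    rw [← mul_assoc, ← map_mul, map_mul, HahnSeries.C_apply, coeffMap_single, cst,
      algebraMap_laurentSeries_eq_single]
    rfl
  rw [map_add, e, ← h1]
  ring

theorem congOne_pow {c : A} {x : LaurentSeries Qb} (h : CongOne A c x) (n : ℕ) :
    CongOne A c (x ^ n) := by
  induction n with
  | zero => rw [pow_zero]; exact CongOne.one c
  | succ n ih => rw [pow_succ]; exact ih.mul h

/-- the partition functions `δ_n`. -/
theorem exists_delta (M p : ℕ) [NeZero M] [NeZero p] (hp : p.Prime)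
    (A : ValuationSubring Qb) (hA : A.LiesOverPrime p)
    (w : FF (M * p) →ₐ[Qb] FF (M * p)) (hw : IsAL M p w) (n : ℕ) (hn : 0 < n) :
    ∃ (δ : FF (M * p)) (g : LaurentSeries Qb) (r : LaurentSeries (kA A)),
      w δ = 1 - δ ∧ RedTo A g r ∧ (δ : LaurentSeries Qb) = cst ((p : Qb) ^ n) * g := by
  classical
  have : Fact p.Prime := ⟨hp⟩
  have := charP_kA hp hA
  set jM : FF M := Fermat.Agent.S24.jF M M dvd_rfl with hjMdef
  have hjM : (jM : LaurentSeries Qb) = castS Qb (Jh M) := by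
    rw [Fermat.Agent.Crux.GM.CoordJ.castS_VJ]
    show coeffEmb Qb (qExpand ℚ M jq) = _
    rw [coeffEmb, coeffMap_qExpand, ← jqModC_rat, coeffMap_jqModC]
  set Jf : FF (M * p) := heckeAlphaBar Qb M p jM with hJfdef
  set Yf : FF (M * p) := heckeBetaBar Qb M p jM with hYfdef
  have hJ : (Jf : LaurentSeries Qb) = castS Qb (Jh M) := by
    rw [hJfdef, coe_heckeAlphaBar, hjM]
  have hY : (Yf : LaurentSeries Qb) = castS Qb (Jh (M * p)) := by
    rw [hYfdef, coe_heckeBetaBar, hjM]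
    have e1 : Jh (M * p) = V ℤ p (Jh M) := by
      show qExpand ℤ (M * p) (J ℤ) = qExpand ℤ p (qExpand ℤ M (J ℤ))
      rw [qExpand_qExpand]
      exact qExpand_congr (mul_comm M p) _
    rw [e1]
    exact (Fermat.Agent.ES.coeffMap_Vq (Int.castRingHom Qb) p (Jh M)).symm
  set U : FF (M * p) := Yf - Jf ^ p with hUdef
  set U' : FF (M * p) := Jf - Yf ^ p with hU'def
  have hwU : w U = U' := by
    rw [hUdef, hU'def, map_sub, map_pow, hJfdef, hYfdef, hw.alpha, hw.beta]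
  have hwU' : w U' = U := by
    rw [hUdef, hU'def, map_sub, map_pow, hJfdef, hYfdef, hw.alpha, hw.beta]
  have hU : (U : LaurentSeries Qb) = castS Qb (uh M p) := by
    have : (U : LaurentSeries Qb) = (Yf : LaurentSeries Qb) - (Jf : LaurentSeries Qb) ^ p := rfl
    rw [this, hJ, hY, uh]
    simp only [castS, map_sub, map_pow]
  have hU' : (U' : LaurentSeries Qb) = castS Qb (uh' M p) := by
    have : (U' : LaurentSeries Qb) = (Jf : LaurentSeries Qb) - (Yf : LaurentSeries Qb) ^ p := rfl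
    rw [this, hJ, hY, uh']
    simp only [castS, map_sub, map_pow]
  obtain ⟨s, hs⟩ := Renorm.exists_div (q := p) (uh M p) (castS_uh (ZMod p) p M)
  set D : FF (M * p) := U ^ n + U' ^ n with hDdef
  have hwD : w D = D := by
    rw [hDdef, map_add, map_pow, map_pow, hwU, hwU', add_comm]
  set r' := castS (kA A) (uh' M p) with hr'def
  have hr' : r' ≠ 0 := castS_uh'_ne_zero (kA A) p M
  have hDred : RedTo A (D : LaurentSeries Qb) (r' ^ n) := by
    have a1 := (Renorm.redTo_castS (A := A) (uh M p)).pow n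
    have a2 := (Renorm.redTo_castS (A := A) (uh' M p)).pow n
    refine (Renorm.redTo_add a1 a2).congr ?_ ?_
    · rw [← hU, ← hU']
      rfl
    · rw [castS_uh (kA A) p M, zero_pow (by omega), zero_add]
  have hzero : RedTo A (0 : LaurentSeries Qb) 0 := by
    refine ⟨0, 1, ?_, ?_, ?_⟩
    · rw [map_one]; exact one_ne_zero
    · simp
    · simp
  have hD0 : D ≠ 0 := by
    intro h0
    rw [h0] at hDred
    exact pow_ne_zero n hr' (hDred.unique hzero)
  refine ⟨U ^ n * D⁻¹, castS Qb s ^ n * (D : LaurentSeries Qb)⁻¹, _, ?_,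
    ((Renorm.redTo_castS (A := A) s).pow n).mul (hDred.inv (pow_ne_zero n hr')), ?_⟩
  · rw [map_mul, map_inv₀, map_pow, hwU, hwD]
    have : U' ^ n = D - U ^ n := by rw [hDdef]; ring
    rw [this]
    field_simp
  · have e1 : ((U ^ n * D⁻¹ : FF (M * p)) : LaurentSeries Qb)
        = (U : LaurentSeries Qb) ^ n * (D : LaurentSeries Qb)⁻¹ := rfl
    rw [e1, hU, hs, mul_pow, cst, cst, map_pow]
    ring

/-- `1 + f δ ≡ 1 mod c` as soon as `δ ∈ p^n V_∞`, `n` large. -/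
theorem exists_small {N p : ℕ} [NeZero N] (hp : p.Prime)
    (hA : A.LiesOverPrime p) (c : A) (hc : c ≠ 0) (f : FF N) :
    ∃ n₀ : ℕ, ∀ n, n₀ ≤ n → ∀ (δ g : LaurentSeries Qb) (r : LaurentSeries (kA A)),
      RedTo A g r → δ = cst ((p : Qb) ^ n) * g →
      CongOne A c (1 + (f : LaurentSeries Qb) * δ) := by
  by_cases hf : f = 0
  · refine ⟨0, fun n _ δ g r _ _ => ?_⟩
    rw [hf, ZeroMemClass.coe_zero, zero_mul, add_zero]
    exact CongOne.one c
  obtain ⟨c₀, r₀, hc₀, -, h₀⟩ := exists_redTo A f hf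
  have hcQ : (c : Qb) ≠ 0 := fun h => hc (Subtype.ext h)
  obtain ⟨n₀, hn₀⟩ := Renorm.exists_pow_small hp hA (c₀⁻¹ / (c : Qb))
  refine ⟨n₀, fun n hn δ g r hg hδ => ?_⟩
  obtain ⟨a, ha, -⟩ := hn₀ n hn
  have key := congOne_one_add_mul c a (h₀.mul hg)
  have e : cst ((c * a : A) : Qb) * (cst c₀ * (f : LaurentSeries Qb) * g)
      = (f : LaurentSeries Qb) * δ := by
    have e1 : ((c * a : A) : Qb) * c₀ = (p : Qb) ^ n := by
      push_cast
      rw [ha]
      field_simp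
    rw [hδ, ← e1]
    simp only [cst, map_mul]
    ring
  rwa [e] at key

set_option maxHeartbeats 400000 in
/-- **Weak approximation / glue.** -/
theorem exists_glue (M p m : ℕ) [NeZero M] [NeZero p] (hp : p.Prime) (hm : 0 < m)
    (A : ValuationSubring Qb) (hA : A.LiesOverPrime p) (c : A) (hc : c ≠ 0)
    (hcm : c ∈ IsLocalRing.maximalIdeal A)
    (w : FF (M * p) →ₐ[Qb] FF (M * p)) (hw : IsAL M p w)
    (x : Kum (M * p) m) (h1 : DeepCl A c x) (h2 : DeepCl A c (wKum hw hp m x)) :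
    ∃ u : Dm (M * p) m, Kum.mk u = x ∧
      CongOne A c (((u : (FF (M * p))ˣ) : FF (M * p)) : LaurentSeries Qb) ∧
      CongOne A c ((w ((u : (FF (M * p))ˣ) : FF (M * p)) : FF (M * p)) : LaurentSeries Qb) := by
  classical
  obtain ⟨u₁, rfl, a₁, ha₁, hu₁⟩ := h1
  obtain ⟨u₂, hu₂x, a₂, ha₂, hu₂⟩ := h2
  rw [wKum_mk, Kum.mk_eq_mk_iff] at hu₂x
  obtain ⟨h, hh⟩ := hu₂x
  -- `u₂ = w u₁ * h ^ m`
  have hrel : ((u₂ : (FF (M * p))ˣ) : FF (M * p))
      = w ((u₁ : (FF (M * p))ˣ) : FF (M * p)) * (h : FF (M * p)) ^ m := by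
    have e := congrArg (fun z : (FF (M * p))ˣ => (z : FF (M * p))) hh
    simp only [Units.val_pow_eq_pow_val, Units.val_mul, Units.val_inv_eq_inv_val, coe_wU] at e
    have h0 : w ((u₁ : (FF (M * p))ˣ) : FF (M * p)) ≠ 0 := by
      rw [Ne, map_eq_zero]; exact Units.ne_zero _
    rw [e]
    field_simp
  obtain ⟨α, hα⟩ := IsAlgClosed.exists_pow_nat_eq a₁ hm
  obtain ⟨β, hβ⟩ := IsAlgClosed.exists_pow_nat_eq a₂ hm
  have hα0 : α ≠ 0 := by
    rintro rfl
    rw [zero_pow hm.ne'] at hα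
    exact ha₁ hα.symm
  have hβ0 : β ≠ 0 := by
    rintro rfl
    rw [zero_pow hm.ne'] at hβ
    exact ha₂ hβ.symm
  set αF : FF (M * p) := algebraMap Qb (FF (M * p)) α with hαF
  set βF : FF (M * p) := algebraMap Qb (FF (M * p)) β with hβF
  have hαF0 : αF ≠ 0 := by rw [hαF, Ne, map_eq_zero]; exact hα0
  have hβF0 : βF ≠ 0 := by rw [hβF, Ne, map_eq_zero]; exact hβ0
  have hh0 : (h : FF (M * p)) ≠ 0 := Units.ne_zero _
  set f₁ : FF (M * p) := (βF * w h - αF) / αF with hf₁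
  set f₂ : FF (M * p) := (αF - βF * h) / (βF * h) with hf₂
  obtain ⟨n₁, hn₁⟩ := exists_small hp hA c hc f₁
  obtain ⟨n₂, hn₂⟩ := exists_small hp hA c hc f₂
  obtain ⟨δ, g, r, hwδ, hg, hδ⟩ := exists_delta M p hp A hA w hw (max n₁ n₂ + 1) (by omega)
  have k₁ := hn₁ _ (by omega) _ g r hg hδ
  have k₂ := hn₂ _ (by omega) _ g r hg hδ
  set t : FF (M * p) := αF * (1 + f₁ * δ) with ht
  have hwt : w t = βF * h * (1 + f₂ * δ) := by
    have e1 : w αF = αF := by rw [hαF, AlgHom.commutes]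
    have e2 : w βF = βF := by rw [hβF, AlgHom.commutes]
    rw [ht, hf₁, hf₂, map_mul, map_add, map_mul, map_one, map_div₀, map_sub, map_mul, e1, e2,
      hw.invol hp, hwδ]
    field_simp
    ring
  have c₁ : CongOne A c (((u₁ : (FF (M * p))ˣ) : FF (M * p)) * t ^ m : FF (M * p)) := by
    have := hu₁.mul (congOne_pow k₁ m)
    have e : ((((u₁ : (FF (M * p))ˣ) : FF (M * p)) * t ^ m : FF (M * p)) : LaurentSeries Qb)
        = cst a₁ * (((u₁ : (FF (M * p))ˣ) : FF (M * p)) : LaurentSeries Qb)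
          * (1 + (f₁ : LaurentSeries Qb) * (δ : LaurentSeries Qb)) ^ m := by
      have e1 : ((((u₁ : (FF (M * p))ˣ) : FF (M * p)) * t ^ m : FF (M * p)) : LaurentSeries Qb)
          = (((u₁ : (FF (M * p))ˣ) : FF (M * p)) : LaurentSeries Qb)
            * (cst α * (1 + (f₁ : LaurentSeries Qb) * (δ : LaurentSeries Qb))) ^ m := rfl
      rw [e1, mul_pow, ← hα, cst, cst, map_pow]
      ring
    rw [e]
    exact this
  have c₂ : CongOne A c
      ((w (((u₁ : (FF (M * p))ˣ) : FF (M * p)) * t ^ m) : FF (M * p)) : LaurentSeries Qb) := by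
    have := hu₂.mul (congOne_pow k₂ m)
    have e : ((w (((u₁ : (FF (M * p))ˣ) : FF (M * p)) * t ^ m) : FF (M * p)) : LaurentSeries Qb)
        = cst a₂ * (((u₂ : (FF (M * p))ˣ) : FF (M * p)) : LaurentSeries Qb)
          * (1 + (f₂ : LaurentSeries Qb) * (δ : LaurentSeries Qb)) ^ m := by
      have e0 : w (((u₁ : (FF (M * p))ˣ) : FF (M * p)) * t ^ m)
          = βF ^ m * ((u₂ : (FF (M * p))ˣ) : FF (M * p)) * (1 + f₂ * δ) ^ m := by
        rw [map_mul, map_pow, hwt, hrel, mul_pow, mul_pow]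
        ring
      rw [e0]
      have e1 : ((βF ^ m * ((u₂ : (FF (M * p))ˣ) : FF (M * p)) * (1 + f₂ * δ) ^ m : FF (M * p)) :
          LaurentSeries Qb) = (cst β) ^ m * (((u₂ : (FF (M * p))ˣ) : FF (M * p)) : LaurentSeries Qb)
            * (1 + (f₂ : LaurentSeries Qb) * (δ : LaurentSeries Qb)) ^ m := rfl
      rw [e1, ← hβ, cst, cst, map_pow]
    rw [e]
    exact this
  have ht0 : t ≠ 0 := by
    intro h0
    rw [h0, zero_pow hm.ne', mul_zero] at c₁
    obtain ⟨y₁, y₂, y₃, k0, k1, k2⟩ := c₁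
    rw [ZeroMemClass.coe_zero, zero_mul] at k1
    have hy₁ : y₁ = 0 := ES.coeffMap_subtype_injective A (by rw [← k1, map_zero])
    apply k0
    have e : y₂ = HahnSeries.C c * (-y₃) := by
      have e' : HahnSeries.C c * (-y₃) = -(HahnSeries.C c * y₃) := by ring
      rw [e', ← k2, hy₁]; ring
    rw [e, map_mul, HahnSeries.C_apply, coeffMap_single,
      (IsLocalRing.residue_eq_zero_iff c).2 hcm, HahnSeries.single_eq_zero, zero_mul]
  have hmem : (Units.mk0 t ht0) ^ m ∈ Dm (M * p) m := Pw_le_Dm _ _ ⟨Units.mk0 t ht0, rfl⟩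
  have hval : (((u₁ * ⟨(Units.mk0 t ht0) ^ m, hmem⟩ : Dm (M * p) m) : (FF (M * p))ˣ) : FF (M * p))
      = ((u₁ : (FF (M * p))ˣ) : FF (M * p)) * t ^ m := by
    rw [Subgroup.coe_mul, Units.val_mul, Units.val_pow_eq_pow_val, Units.val_mk0]
  refine ⟨u₁ * ⟨(Units.mk0 t ht0) ^ m, hmem⟩, ?_, ?_, ?_⟩
  · rw [Kum.mk_mul, add_eq_left, Kum.mk_eq_zero_iff]
    exact ⟨Units.mk0 t ht0, rfl⟩
  · rw [hval]; exact c₁
  · rw [hval]; exact c₂

end Fermat.Agent.S33.Glue
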