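import Fermat.Agent.S33.Glue.Defs
import Fermat.Agent.SS.GM2.Core
import Fermat.Agent.Wild.Main

/-!
# S33 / Glue : the abstract wild core  (`Setup` + `GR` + `Wild.theoremG2p`)     (owner: helper13)

Copy of `SS.GM2.core2_abstract`, ending with `Wild.theoremG2p`.
-/

set_option autoImplicit false
set_option linter.unusedSectionVars false
set_option linter.style.haveILetI false

open Polynomial ModularCurve

namespace Fermat.Agent.S33.Glue

open Fermat.Agent.Crux.G Fermat.Agent.SS.G2 Fermat.Agent.SS.GM2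
open Fermat.Agent.S28 (V J evAt)
open Fermat.Agent.Crux.GM (castS)
open Fermat.Agent.S24 (XN)

variable {M ℓ : ℕ} [NeZero M] [NeZero ℓ]
variable {A K k : Type} [CommRing A] [IsDomain A] [IsDiscreteValuationRing A] [Field K]
  [CharZero K] [Algebra A K] [IsFractionRing A K] [Algebra K Fermat.Agent.S24.Kb] [Field k] [Finite k]
  {r : A →+* k} {π : A}
variable {F : Type} [Field F] [Algebra A F] {Φ : F →+* LaurentSeries K} {w : F →+* F}

/-- on a finite field of characteristic `ℓ` some even iterate of Frobenius is the identity. -/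
theorem exists_nu (k : Type) [Field k] [Finite k] (ℓ : ℕ) [Fact ℓ.Prime] [CharP k ℓ] :
    ∃ ν : ℕ, ∀ a : k, a = a ^ (ℓ ^ (2 * ν)) := by
  classical
  haveI := Fintype.ofFinite k
  obtain ⟨n, _, hcard⟩ := FiniteField.card k ℓ
  refine ⟨n, fun a => ?_⟩
  have h1 : a ^ (ℓ ^ (n : ℕ)) = a := by rw [← hcard]; exact FiniteField.pow_card a
  rw [two_mul, pow_add, pow_mul, h1, h1]

/-- `CongK` gives the quotient `(x - 1) / c` a reduction. -/
theorem CongK.exists_redK {c : A} (hc : c ≠ 0) {x y : LaurentSeries K} (h : CongK r c x)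
    (hy : x - 1 = HahnSeries.C (algebraMap A K c) * y) : ∃ a, RedK r y a := by
  obtain ⟨y₁, y₂, y₃, h0, h1, h2⟩ := h
  refine ⟨coeffMap r y₃ / coeffMap r y₂, y₃, y₂, h0, ?_, by rw [div_mul_cancel₀ _ h0]⟩
  have hcK : (HahnSeries.C (algebraMap A K c) : LaurentSeries K) ≠ 0 := by
    rw [Ne, map_eq_zero_iff _ HahnSeries.C_injective]
    exact fun h => hc (IsFractionRing.injective A K (by rw [h, map_zero]))
  apply mul_left_cancel₀ hcK
  have e3 := congrArg (coeffMap (algebraMap A K)) h2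
  rw [map_sub, map_mul, Fermat.Agent.Crux.coeffMap_C] at e3
  rw [← e3, ← h1, ← mul_assoc, ← hy]
  ring

theorem core2w_abstract
    {E E₁ L : Type} [Field E] [Field E₁] [Field L] [CharZero E]
    [Algebra A E] [Algebra E F] [IsScalarTower A E F] [FiniteDimensional E F]
    [Algebra A E₁] [Algebra E₁ F] [IsScalarTower A E₁ F]
    [Algebra F L] [Algebra E L] [IsScalarTower E F L] [Algebra A L] [IsScalarTower A E L]
    (S : Setup M ℓ r π Φ w)
    (ΦL : L →+* LaurentSeries K) (hΦL : ∀ f, ΦL (algebraMap F L f) = Φ f)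
    (X : E) (hX : Φ (algebraMap E F X) = castS K (Xh M ℓ)) (hXt : Transcendental A X)
    (hgen : ∀ c : E, ∃ p q : A[X], q ≠ 0 ∧ c * aeval X q = aeval X p)
    (Y₁ : E₁) (hY₁ : Φ (algebraMap E₁ F Y₁) = castS K (Jh (M * ℓ)))
    (hY₁t : Transcendental A Y₁)
    (hgen₁ : ∀ c : E₁, ∃ p q : A[X], q ≠ 0 ∧ c * aeval Y₁ q = aeval Y₁ p)
    (hn₁ : Module.finrank E₁ F = Nat.card (XN (M * ℓ)))
    (G0 : GR M r (castS K (Jh M)) (castS k (Jh M)))
    (Ginf : GR M r (castS K (Jh M))⁻¹ (castS k (Jh M))⁻¹)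
    (ζ : A) (hζ : IsPrimitiveRoot ζ ℓ)
    (τ : F →+* F) (τK : K →+* K) (τA : A →+* A)
    (hτKA : ∀ a, τK (algebraMap A K a) = algebraMap A K (τA a))
    (hτ : ∀ f, Φ (τ f) = coeffMap τK (Φ f)) (hτw : ∀ f, τ (w f) = w (τ f))
    (hin : ∀ a, r (τA a) = r a)
    (e f : ℕ) (hτζ : τA ζ = ζ ^ e) (hef : ℓ ∣ e + f)
    (W : F) (hW₁ : CongK r ((ζ - 1) ^ ℓ) (Φ W)) (hW₂ : CongK r ((ζ - 1) ^ ℓ) (Φ (w W)))
    (hinv0 : InvKx π X ℓ W) (hinvinf : InvKx π X⁻¹ ℓ W)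
    (v : L) (hv : v ^ ℓ = algebraMap F L (τ W * W ^ f)) : ∃ h : F, algebraMap F L h = v := by
  classical
  have hℓ := S.hℓ
  haveI : Fact ℓ.Prime := ⟨hℓ⟩
  haveI hchar : CharP k ℓ := by
    have : (ℓ : k) = 0 := by rw [← map_natCast r, S.hrℓ]
    exact (CharP.charP_iff_prime_eq_zero hℓ).mpr this
  obtain ⟨ν, hν0⟩ := exists_nu k ℓ
  have hν : ∀ a, r (τA a) = r a ^ (ℓ ^ (2 * ν)) := fun a => by rw [hin, ← hν0]
  obtain ⟨Jf, Yf, hJ, hY⟩ := S.exists_J
  have hYe : algebraMap E₁ F Y₁ = Yf := Φ.injective (by rw [hY₁, hY])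
  have hXe : algebraMap E F X = Jf * Yf := Φ.injective (by rw [hX, S.Phi_X hJ hY])
  have QY : QL M r π Φ w Yf := hYe ▸ S.ql_Y Y₁ hY₁ hY₁t hgen₁ hn₁
  have QX : QL M r π Φ w (algebraMap E F X) := hXe ▸ S.ql_X hJ hY QY
  have hX0 : X ≠ 0 := fun h => hXt (h ▸ isAlgebraic_zero)
  have hXF0 : algebraMap E F X ≠ 0 := by rwa [Ne, map_eq_zero]
  have QXi : QL M r π Φ w (algebraMap E F X⁻¹) := by
    rw [map_inv₀]; exact QX.inv S.hπ hXF0
  have hXk0 : castS k (Xh M ℓ) ≠ 0 := by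
    rw [castS_Xh k ℓ M]
    refine pow_ne_zero _ ?_
    exact Fermat.Agent.Crux.GM.castS_ne_zero _ (by
      rw [HahnSeries.leadingCoeff_eq, Fermat.Agent.Crux.GM.CoordJ.order_VJ,
        Fermat.Agent.Crux.GM.CoordJ.coeff_VJ_self])
  obtain ⟨ε, hε₁, hε₂, hετ⟩ := S.exists_eps
  have hredX : RedK r (Φ (algebraMap E F X)) (castS k (Xh M ℓ)) := by
    rw [hX]; exact RedK.of_castS _
  have hwX : w (algebraMap E F X) = algebraMap E F X := by rw [hXe]; exact S.w_X hJ hY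
  obtain ⟨x₁, x₂, Z, _, D0, -⟩ := S.exists_sfDatax X (castS k (Xh M ℓ)) hredX hwX
    (V_castS k ℓ _) (fun σ => Fermat.Agent.Crux.GM.coeffMap_castS σ _) QX
    (fun a ha hint => by
      obtain ⟨c, h1, h2⟩ := S.lift_X hJ hY G0 a ha hint
      exact ⟨c, (intX_algebraMap_iff X c).mp (hXe ▸ h1), h2⟩)
    τ τK τA hτKA hτ hτw ν hν ε hε₁ hε₂
  obtain ⟨x₁', x₂', Z', _, Dinf, -⟩ := S.exists_sfDatax X⁻¹ (castS k (Xh M ℓ))⁻¹
    (by rw [map_inv₀, map_inv₀]; exact hredX.inv hXk0)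
    (by rw [map_inv₀, map_inv₀, hwX])
    (by rw [map_inv₀, V_castS k ℓ, inv_pow])
    (fun σ => by rw [map_inv₀, Fermat.Agent.Crux.GM.coeffMap_castS]) QXi
    (fun a ha hint => by
      obtain ⟨c, h1, h2⟩ := S.lift_Xinv hJ hY Ginf a ha hint
      refine ⟨c, (intX_algebraMap_iff X⁻¹ c).mp ?_, h2⟩
      rw [map_inv₀, hXe]; exact h1)
    τ τK τA hτKA hτ hτw ν hν ε hε₁ hε₂
  have hpi : ∀ f : F, RedK r (Φ f) 0 → RedK r (Φ (w f)) 0 → IsPiOLx π X f := fun f h1 h2 =>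
    (isPiOLx_algebraMap_iff π X f).mp (QX.isPiOL f h1 h2)
  have hΦAL : ∀ a : A, ΦL (algebraMap A L a) = HahnSeries.C (algebraMap A K a) := by
    intro a
    rw [IsScalarTower.algebraMap_apply A E L, IsScalarTower.algebraMap_apply E F L, hΦL,
      ← IsScalarTower.algebraMap_apply A E F, S.hΦA]
  have hrπ := Fermat.Agent.Crux.GM.map_irreducible_eq_zero r π S.hr S.hπ
  -- the quotient `c = (W - 1) / (ζ - 1)^ℓ`
  have hζ1 : (ζ - 1) ^ ℓ ≠ 0 := pow_ne_zero _ (sub_ne_zero.2 (hζ.ne_one hℓ.one_lt))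
  have hζF : algebraMap A F ((ζ - 1) ^ ℓ) ≠ 0 := by
    intro h
    have h1 := congrArg Φ h
    rw [S.hΦA, map_zero, map_eq_zero_iff _ HahnSeries.C_injective] at h1
    exact hζ1 (IsFractionRing.injective A K (by rw [h1, map_zero]))
  set c : F := (W - 1) / algebraMap A F ((ζ - 1) ^ ℓ) with hc
  have hWc : W - 1 = algebraMap A F ((ζ - 1) ^ ℓ) * c := by
    rw [hc, mul_div_cancel₀ _ hζF]
  obtain ⟨a₁, ha₁⟩ := hW₁.exists_redK hζ1 (y := Φ c) (by
    rw [← S.hΦA, ← map_mul, ← hWc, map_sub, map_one])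
  obtain ⟨a₂, ha₂⟩ := hW₂.exists_redK hζ1 (y := Φ (w c)) (by
    rw [← S.hΦA, ← S.hwA, ← map_mul, ← map_mul, ← hWc, map_sub, map_sub, map_one, map_one])
  have hk : ∀ c, r (τA c) = RingHom.id k (r c) := fun c => hin c
  refine Fermat.Agent.Wild.theoremG2p π S.hπ X hXt hgen
    (Fermat.Agent.Crux.GM.H0_of_Phi ΦL hΦAL) ℓ hℓ ?_ ζ hζ τ τA ?_ ?_ ?_ e f hτζ hef D0 Dinf W c
    ?_ ?_ hinv0 hinvinf v hv
  · -- `π ∣ ℓ`
    apply Fermat.Agent.Crux.GM.dvd_of_map_eq_zero r S.hr S.hπ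
    exact S.hrℓ
  · intro a
    apply Φ.injective
    rw [hτ, S.hΦA, S.hΦA, Fermat.Agent.Crux.coeffMap_C, hτKA]
  · apply Φ.injective
    rw [hτ, hX, Fermat.Agent.Crux.GM.coeffMap_castS]
  · -- `τ` is trivial on `O_F / π`
    intro y hy
    obtain ⟨b₁, b₂, hb₁, hb₂⟩ := QX.red y ((isOLx_algebraMap_iff π X y).mpr hy)
    apply hpi
    · have h1 := hb₁.map_coeffMap τK τA (RingHom.id k) hτKA hk
      rw [coeffMap_id, ← hτ] at h1
      have := h1.sub hb₁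
      rw [← map_sub] at this
      exact this.congr rfl (by ring)
    · have h1 := hb₂.map_coeffMap τK τA (RingHom.id k) hτKA hk
      rw [coeffMap_id, ← hτ, hτw] at h1
      have := h1.sub hb₂
      rw [← map_sub, ← map_sub] at this
      exact this.congr rfl (by ring)
  · exact (isOLx_algebraMap_iff π X c).mp (QX.isOL c a₁ a₂ ha₁ ha₂)
  · rw [hWc, map_pow]

end Fermat.Agent.S33.Glue
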