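import Fermat.Agent.S33.Level.Stubs
import Fermat.Agent.SS.GM2.Desc.Renorm

/-!
# S33 / Glue-Eps : the approximate idempotents `ε_n` of `F_{Mp}` and a depth lemma

`exists_eps` : extract from the proof of `SS.GM2.exists_renorm` (`SS/GM2/Desc/Renorm.lean`, `q := p`):
`J = α(j_M)`, `Y = β(j_M) = w J`, `𝔲 = Y - J^p = p · s₀` (`Renorm.exists_div`), `𝔲' = w 𝔲 = J - Y^p`,
`D_n = 𝔲^n + 𝔲'^n` has nonzero reduction `(red 𝔲')^n` (`n ≥ 1`), `ε := 𝔲'^n / D_n`,
`1 - ε = 𝔲^n / D_n = p^n · (s₀^n / D_n)`, `w ε = 1 - ε`; `s := s₀^n / D_n` has a reduction.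

`congOne_one_add` : if `g = 0` trivial.  Otherwise `SS.exists_redTo` : `RedTo A (cst d * g) r₀`, `d ≠ 0`.
`Renorm.exists_pow_small`-type statement: there is `n₀` with `p^n / (d p²) ∈ A` for `n ≥ n₀`.  Then
`g * (p^n s) = p² * (a * (d g) * s)` with `a ∈ A`, and `a (d g) s = y₁ / y₂` with `y₁ y₂ ∈ A((q))`,
`red y₂ ≠ 0` (`RedTo.mul`, `RedTo.cst_of_mem`); so `1 + g p^n s = (y₂ + p² y₁) / y₂` is `CongOne`.
-/

set_option autoImplicit false

open AlgebraicCurve ModularCurve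

namespace Fermat.Agent.S33.Glue

open Fermat.Agent.ES Fermat.Agent.SS
open Fermat.Agent.S28 (V J)
open Fermat.Agent.Crux.GM (castS)

variable {M p : ℕ} [NeZero M] [NeZero p] {A : ValuationSubring Qb}

theorem exists_eps (hp : p.Prime) (hpM : ¬ p ∣ M) (hA : A.LiesOverPrime p)
    {w : FF (M * p) →ₐ[Qb] FF (M * p)} (hw : IsAL M p w) (n : ℕ) :
    ∃ (ε s : FF (M * p)) (r : LaurentSeries (kA A)), w ε = 1 - ε ∧
      1 - ε = algebraMap Qb (FF (M * p)) ((p : Qb) ^ n) * s ∧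
      RedTo A (s : LaurentSeries Qb) r := by
  classical
  have : Fact p.Prime := ⟨hp⟩
  have := charP_kA hp hA
  set jM : FF M := Fermat.Agent.S24.jF M M dvd_rfl with hjMdef
  have hjM : (jM : LaurentSeries Qb) = castS Qb (GM2.Jh M) := by
    rw [Fermat.Agent.Crux.GM.CoordJ.castS_VJ]
    show coeffEmb Qb (qExpand ℚ M jq) = _
    rw [coeffEmb, coeffMap_qExpand, ← jqModC_rat, coeffMap_jqModC]
  set Jf : FF (M * p) := heckeAlphaBar Qb M p jM with hJfdef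
  set Yf : FF (M * p) := heckeBetaBar Qb M p jM with hYfdef
  have hJ : (Jf : LaurentSeries Qb) = castS Qb (GM2.Jh M) := by
    rw [hJfdef, coe_heckeAlphaBar, hjM]
  have hY : (Yf : LaurentSeries Qb) = castS Qb (GM2.Jh (M * p)) := by
    rw [hYfdef, coe_heckeBetaBar, hjM]
    have e1 : GM2.Jh (M * p) = V ℤ p (GM2.Jh M) := by
      show qExpand ℤ (M * p) (J ℤ) = qExpand ℤ p (qExpand ℤ M (J ℤ))
      rw [qExpand_qExpand]
      exact qExpand_congr (mul_comm M p) _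
    rw [e1]
    exact (Fermat.Agent.ES.coeffMap_Vq (Int.castRingHom Qb) p (GM2.Jh M)).symm
  set U : FF (M * p) := Yf - Jf ^ p with hUdef
  set U' : FF (M * p) := Jf - Yf ^ p with hU'def
  have hwU : w U = U' := by
    rw [hUdef, hU'def, map_sub, map_pow, hJfdef, hYfdef, hw.alpha, hw.beta]
  have hwU' : w U' = U := by
    rw [hUdef, hU'def, map_sub, map_pow, hJfdef, hYfdef, hw.alpha, hw.beta]
  have hU : (U : LaurentSeries Qb) = castS Qb (GM2.uh M p) := by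
    have : (U : LaurentSeries Qb) = (Yf : LaurentSeries Qb) - (Jf : LaurentSeries Qb) ^ p := rfl
    rw [this, hJ, hY, GM2.uh]
    simp only [castS, map_sub, map_pow]
  have hU' : (U' : LaurentSeries Qb) = castS Qb (GM2.uh' M p) := by
    have : (U' : LaurentSeries Qb) = (Jf : LaurentSeries Qb) - (Yf : LaurentSeries Qb) ^ p := rfl
    rw [this, hJ, hY, GM2.uh']
    simp only [castS, map_sub, map_pow]
  obtain ⟨s₀, hs₀⟩ := GM2.Renorm.exists_div (q := p) (GM2.uh M p) (GM2.castS_uh (ZMod p) p M)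
  set D : FF (M * p) := U ^ (n + 1) + U' ^ (n + 1) with hDdef
  have hwD : w D = D := by
    rw [hDdef, map_add, map_pow, map_pow, hwU, hwU', add_comm]
  set r' := castS (kA A) (GM2.uh' M p) with hr'def
  have hr' : r' ≠ 0 := GM2.castS_uh'_ne_zero (kA A) p M
  have hDred : RedTo A (D : LaurentSeries Qb) (r' ^ (n + 1)) := by
    have a1 := (GM2.Renorm.redTo_castS (A := A) (GM2.uh M p)).pow (n + 1)
    have a2 := (GM2.Renorm.redTo_castS (A := A) (GM2.uh' M p)).pow (n + 1)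
    refine (GM2.Renorm.redTo_add a1 a2).congr ?_ ?_
    · rw [← hU, ← hU']
      rfl
    · rw [GM2.castS_uh (kA A) p M, zero_pow (by omega), zero_add]
  have hzero : RedTo A (0 : LaurentSeries Qb) 0 := by
    refine ⟨0, 1, ?_, ?_, ?_⟩
    · rw [map_one]; exact one_ne_zero
    · simp
    · simp
  have hD0 : D ≠ 0 := by
    intro h0
    rw [h0] at hDred
    exact pow_ne_zero (n + 1) hr' (hDred.unique hzero)
  set δ : FF (M * p) := U ^ (n + 1) * D⁻¹ with hδdef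
  have hwδ : w δ = 1 - δ := by
    rw [hδdef, map_mul, map_inv₀, map_pow, hwU, hwD]
    have : U' ^ (n + 1) = D - U ^ (n + 1) := by rw [hDdef]; ring
    rw [this]
    field_simp
  have hp0 : (p : Qb) ≠ 0 := by exact_mod_cast hp.ne_zero
  have hpn : algebraMap Qb (FF (M * p)) ((p : Qb) ^ n) ≠ 0 := by
    rw [Ne, map_eq_zero]
    exact pow_ne_zero _ hp0
  have b1 := (RedTo.cst_of_mem (A := A) (p : A)).mul
    (((GM2.Renorm.redTo_castS (A := A) s₀).pow (n + 1)).mul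
      (hDred.inv (pow_ne_zero (n + 1) hr')))
  refine ⟨1 - δ, (algebraMap Qb (FF (M * p)) ((p : Qb) ^ n))⁻¹ * δ, _, ?_, ?_, b1.congr ?_ rfl⟩
  · rw [map_sub, map_one, hwδ]
  · rw [sub_sub_cancel, mul_inv_cancel_left₀ hpn]
  · have e1 : (((algebraMap Qb (FF (M * p)) ((p : Qb) ^ n))⁻¹ * δ : FF (M * p)) : LaurentSeries Qb)
        = (cst ((p : Qb) ^ n))⁻¹ * ((U : LaurentSeries Qb) ^ (n + 1) * (D : LaurentSeries Qb)⁻¹) := rfl
    have hc0 : cst (p : Qb) ≠ 0 := by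
      rw [Ne, map_eq_zero]
      exact hp0
    have e2 : (((p : A) : Qb)) = (p : Qb) := by simp
    rw [e1, hU, hs₀, e2, mul_pow, cst, cst, map_pow, pow_succ (algebraMap Qb (LaurentSeries Qb) (p : Qb)) n]
    have hc1 : algebraMap Qb (LaurentSeries Qb) (p : Qb) ^ n ≠ 0 := pow_ne_zero _ hc0
    rw [mul_assoc (algebraMap Qb (LaurentSeries Qb) (p : Qb) ^ n), mul_assoc (algebraMap Qb (LaurentSeries Qb) (p : Qb) ^ n),
      inv_mul_cancel_left₀ hc1, mul_assoc]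

theorem congOne_one_add {N : ℕ} [NeZero N] (hp : p.Prime) (hA : A.LiesOverPrime p) (g : FF N) :
    ∃ n₀ : ℕ, ∀ n : ℕ, n₀ ≤ n → ∀ (s : LaurentSeries Qb) (r : LaurentSeries (kA A)),
      RedTo A s r →
      CongOne A ((p : A) ^ 2) (1 + (g : LaurentSeries Qb) * (cst ((p : Qb) ^ n) * s)) := by
  by_cases hg : g = 0
  · refine ⟨0, fun n _ s r _ => ?_⟩
    have : ((g : FF N) : LaurentSeries Qb) = 0 := by rw [hg]; rfl
    rw [this, zero_mul, add_zero]
    exact CongOne.one _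
  obtain ⟨d, r₀, hd, -, hdg⟩ := exists_redTo A g hg
  have hp0 : (p : Qb) ≠ 0 := by exact_mod_cast hp.ne_zero
  obtain ⟨n₀, hn₀⟩ := GM2.Renorm.exists_pow_small hp hA ((d * (p : Qb) ^ 2)⁻¹)
  refine ⟨n₀, fun n hn s r hs => ?_⟩
  obtain ⟨a, ha, -⟩ := hn₀ n hn
  obtain ⟨z₁, z₂, h0, h1, -⟩ := (RedTo.cst_of_mem (A := A) a).mul (hdg.mul hs)
  refine ⟨z₂ + HahnSeries.C ((p : A) ^ 2) * z₁, z₂, z₁, h0, ?_, by ring⟩
  have e2 : ((((p : A) ^ 2 : A)) : Qb) = (p : Qb) ^ 2 := by simp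
  rw [map_add, map_mul, ← h1, Fermat.Agent.Crux.coeffMap_C, ha]
  have e3 : (HahnSeries.C (A.subtype ((p : A) ^ 2)) : LaurentSeries Qb) = cst ((p : Qb) ^ 2) := by
    rw [cst, Fermat.Agent.Crux.algebraMap_eq_C]
    congr 1
  rw [e3]
  have e4 : cst ((p : Qb) ^ n) = cst ((p : Qb) ^ 2) * (cst ((d * (p : Qb) ^ 2)⁻¹ * (p : Qb) ^ n) * cst d) := by
    rw [cst, cst, cst, cst, ← map_mul, ← map_mul]
    congr 1
    field_simp
  rw [e4]
  ring

end Fermat.Agent.S33.Glue
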