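import Fermat.Agent.S33.Glue.Approx

/-!
# S33 / Glue-Renorm : one representative which is deep for BOTH Gauss valuations  (glue lemma (iv))

`h1` : `u₁`, `mk u₁ = x`, `a₁ ≠ 0`, `CongOne (a₁ u₁)`.   `h2` : `u₂`, `mk u₂ = w x`, `a₂ ≠ 0`, `CongOne (a₂ u₂)`.
`mk (w u₂) = w (w x) = x = mk u₁` (`wKum_mk`, `wKum_wKum`), so `w u₂ = u₁ h^p` (`Kum.mk_eq_mk_iff`), and
`u₂ = w(u₁) w(h)^p` (`IsAL.invol`).  `α^p = a₁`, `β^p = a₂` (`IsAlgClosed.exists_pow_nat_eq`).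
With `ε`, `s` from `exists_eps` (`n` large):  `t := α ε + β h (1 - ε)`,  `W := u₁ t^p`.
* `t = α (1 + g (1 - ε))`, `g := (β/α) h - 1`; so `W = (a₁ u₁) (1 + g p^n s)^p` : `CongOne.mul`,
  `congOne_one_add`.
* `w t = α (1 - ε) + β w(h) ε = β w(h) (1 + g' (1 - ε))`, `g' := α / (β w(h)) - 1`; so
  `w W = w(u₁) w(h)^p β^p (1 + g' p^n s)^p = (a₂ u₂) (1 + g' p^n s)^p`.
* `t ≠ 0` (a `CongOne` series is nonzero), `W ∈ Dm`, `mk W = mk u₁` (`Kum.mk_eq_mk_iff`).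
-/

set_option autoImplicit false

open AlgebraicCurve ModularCurve

namespace Fermat.Agent.S33.Glue

open Fermat.Agent.ES Fermat.Agent.SS

variable {M p : ℕ} [NeZero M] [NeZero p] {A : ValuationSubring Qb}

theorem exists_deep_rep (hp : p.Prime) (hpM : ¬ p ∣ M) (hA : A.LiesOverPrime p)
    {w : FF (M * p) →ₐ[Qb] FF (M * p)} (hw : IsAL M p w) (x : Kum (M * p) p)
    (h1 : DeepCl A ((p : A) ^ 2) x) (h2 : DeepCl A ((p : A) ^ 2) (wKum hw hp p x)) :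
    ∃ W : Dm (M * p) p, Kum.mk W = x ∧
      CongOne A ((p : A) ^ 2) (((W : (FF (M * p))ˣ) : FF (M * p)) : LaurentSeries Qb) ∧
      CongOne A ((p : A) ^ 2) ((w ((W : (FF (M * p))ˣ) : FF (M * p)) : FF (M * p)) :
        LaurentSeries Qb) := by
  have hp0 : ((p : A) ^ 2) ≠ 0 := by
    apply pow_ne_zero
    intro h0
    have : ((p : A) : Qb) = 0 := by rw [h0]; rfl
    exact hp.ne_zero (by exact_mod_cast this)
  have hpm : ((p : A) ^ 2) ∈ IsLocalRing.maximalIdeal A := by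
    rw [← IsLocalRing.residue_eq_zero_iff, map_pow, Fermat.Agent.Crux.residue_natCast_eq_zero A hA,
      zero_pow two_ne_zero]
  exact exists_glue M p p hp hp.pos A hA _ hp0 hpm w hw x h1 h2

end Fermat.Agent.S33.Glue
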